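import Fermat.Statements.S42
import Fermat.Prelude.Def_GaloisRep_Residual
import Fermat.Agent.S13.Assembly

/-!
# S42 from S29 (pure wiring)

`of_S29`: the statement of S29 (taken as a hypothesis) implies the statement of S42.
-/

set_option autoImplicit false

namespace Fermat.Agent.S42

open Polynomial FreyPackage WeierstrassCurve.Affine.Point

local notation "Qbar" => AlgebraicClosure ℚ
local notation "GQ" => (AlgebraicClosure ℚ ≃ₐ[ℚ] AlgebraicClosure ℚ)

/-- The statement of S29, verbatim. -/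
def S29Statement : Prop :=
  ∀ {N : ℕ} {g : CuspForm (CongruenceSubgroup.Gamma0 N) 2} (_ : g.IsNormalizedEigenform)
    {p : ℕ} (_ : p.Prime) {k : Type} [Field k] [CharP k p]
    (φ : integralClosure ℤ ℂ →+* k),
    ∃ ρ : ResidualGaloisRep k, ρ.IsAttachedTo g φ ∧
      ∀ ℓ : ℕ, ℓ.Prime → ¬ ℓ ∣ N * p → ρ.IsUnramifiedAt ℓ

section LinAlg

variable {K : Type*} [Field K] {V : Type*} [AddCommGroup V] [Module K V] [Module.Finite K V]

theorem trace_of_charpoly (hV : Module.finrank K V = 2) (f : Module.End K V) (a b : K)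
    (h : LinearMap.charpoly f = X ^ 2 - C a * X + C b) : LinearMap.trace K V f = a := by
  have hcard : Fintype.card (Module.Free.ChooseBasisIndex K V) = 2 := by
    rw [← Module.finrank_eq_card_chooseBasisIndex, hV]
  have : Nonempty (Module.Free.ChooseBasisIndex K V) := by
    rw [← Fintype.card_pos_iff, hcard]; norm_num
  rw [LinearMap.trace_eq_matrix_trace K (Module.Free.chooseBasis K V),
    Matrix.trace_eq_neg_charpoly_coeff, ← LinearMap.charpoly_def, h, hcard]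
  simp [coeff_C]

theorem det_of_charpoly (hV : Module.finrank K V = 2) (f : Module.End K V) (a b : K)
    (h : LinearMap.charpoly f = X ^ 2 - C a * X + C b) : LinearMap.det f = b := by
  rw [LinearMap.det_eq_sign_charpoly_coeff, h, hV]
  simp

end LinAlg

theorem of_S29 (h29 : S29Statement) (P : FreyPackage) :
    ∀ M : ℕ, 0 < M → P.EigenformResidualAttachmentAt M := by
  intro M _ g hg 𝔪 h𝔪 hp𝔪
  let : Field (integralClosure ℤ ℂ ⧸ 𝔪) := Ideal.Quotient.field 𝔪
  have hp0 : ((P.p : ℕ) : integralClosure ℤ ℂ ⧸ 𝔪) = 0 := by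
    have := Ideal.Quotient.eq_zero_iff_mem.2 hp𝔪
    simpa using this
  have : CharP (integralClosure ℤ ℂ ⧸ 𝔪) P.p := (CharP.charP_iff_prime_eq_zero P.pp).2 hp0
  obtain ⟨ρ, hatt, -⟩ := h29 hg P.pp (Ideal.Quotient.mk 𝔪)
  obtain ⟨L₁, hL₁, hρ⟩ := ρ.factorsThroughFiniteLevel
  have := hL₁
  -- the number field
  let L : IntermediateField ℚ Qbar := IntermediateField.normalClosure ℚ ↥(L₁ ⊔ S13.L0 P) Qbar
  have hle : L₁ ⊔ S13.L0 P ≤ L := IntermediateField.le_normalClosure _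
  have : FiniteDimensional ℚ ↥(L₁ ⊔ S13.L0 P) := IntermediateField.finiteDimensional_sup _ _
  have : FiniteDimensional ℚ L := normalClosure.is_finiteDimensional ℚ ↥(L₁ ⊔ S13.L0 P) Qbar
  have : IsAlgClosure ℚ Qbar :=
    ⟨inferInstance, AlgebraicClosure.isAlgebraic ℚ⟩
  have : Normal ℚ Qbar := IsAlgClosure.normal ℚ Qbar
  have : Normal ℚ L := normalClosure.normal ℚ ↥(L₁ ⊔ S13.L0 P) Qbar
  have : NumberField L := { to_charZero := inferInstance, to_finiteDimensional := inferInstance }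
  have : IsGalois ℚ L := { }
  have hker : ∀ σ : GQ, σ ∈ (AlgEquiv.restrictNormalHom (F := ℚ) (K₁ := Qbar) L).ker →
      ∀ x ∈ L, σ x = x := by
    intro σ hσ x hx
    rw [MonoidHom.mem_ker] at hσ
    have h1 := AlgEquiv.restrictNormal_commutes σ L ⟨x, hx⟩
    have h2 : σ.restrictNormal L = 1 := hσ
    rw [h2] at h1
    exact h1.symm
  have hℓ : ∀ ℓ : ℕ, ℓ.Prime → ℓ ≠ P.p → ((ℓ : ℕ) : integralClosure ℤ ℂ ⧸ 𝔪) ≠ 0 := by
    intro ℓ hℓ hne h0
    rw [CharP.cast_eq_zero_iff _ P.p] at h0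
    exact hne ((Nat.prime_dvd_prime_iff_eq P.pp hℓ).1 h0).symm
  refine ⟨integralClosure ℤ ℂ ⧸ 𝔪, inferInstance, ZMod.algebra _ P.p, ρ.V, inferInstance,
    inferInstance, ρ.ρ, Ideal.Quotient.mk 𝔪, L, inferInstance, inferInstance, inferInstance,
    inferInstance, inferInstance, ?_, ρ.finrank_eq, ?_, ?_, ?_⟩
  · rw [Ideal.mk_ker]
  · intro σ hσ
    have hfix := hker σ hσ
    refine Subgroup.mem_inf.2 ⟨?_, ?_⟩
    · rw [MonoidHom.mem_ker]
      ext1 x
      have : σ ∈ (S13.L0 P).fixingSubgroup := by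
        rw [IntermediateField.mem_fixingSubgroup_iff]
        intro y hy
        exact hfix y (hle (le_sup_right (a := L₁) hy))
      exact S13.smul_eq_of_mem_fixing P σ this x
    · rw [MonoidHom.mem_ker]
      exact hρ σ fun x hx => hfix x (hle (le_sup_left (b := S13.L0 P) hx))
  · intro ℓ hℓp hℓM hne A hA τ hτ
    obtain ⟨a, ha, hcp⟩ := hatt ℓ hℓp hℓM (hℓ ℓ hℓp hne) A hA τ hτ
    exact ⟨a, ha, trace_of_charpoly ρ.finrank_eq _ _ _ hcp⟩
  · intro ℓ hℓp hℓM hne A hA τ hτ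
    obtain ⟨a, ha, hcp⟩ := hatt ℓ hℓp hℓM (hℓ ℓ hℓp hne) A hA τ hτ
    exact det_of_charpoly ρ.finrank_eq _ _ _ hcp

end Fermat.Agent.S42
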